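import Fermat.Agent.LT.T7.H558.FactDownSpec

/-!
# Row LT, tower T7, asset leaf T7.L2.1.C2.7.7.2 `H558.CompContC558` (helper409): PROVED

OFF-MAIN.  No hole, nothing assumed.

    compContC409 (K) : H558.CompContC558 K

The components `GL₂(𝔸_K) → GL₂(K_v)` (`H305.finGL305 v`) and `GL₂(𝔸_K) → GL₂(ℂ)`
(`H305.infGL305 w`) are continuous: `T5.finHom v`, `T5.infHom w` are continuous ring
homomorphisms (`RestrictedProduct.continuous_eval`, `isometry_extensionEmbedding`), the map of
matrices of a continuous map is continuous (`Continuous.matrix_map`), `Units.map` of a continuous
homomorphism of monoids is continuous (`Continuous.units_map`).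
-/

set_option autoImplicit false
set_option linter.unusedSectionVars false

open IsDedekindDomain NumberField Topology

noncomputable section

namespace Fermat.Agent.LT.T7.H409

open Fermat.Agent.LT.H556 Fermat.Agent.LT.H556.A0 Fermat.Agent.LT.T7 Fermat.Agent.LT.T7.H305

variable {K : Type} [Field K] [NumberField K]

/-- The component at a finite place is continuous on the adeles. -/
theorem continuous_finHom409 (v : HeightOneSpectrum (𝓞 K)) :
    Continuous (T5.finHom (K := K) v) := by
  have h1 : Continuous fun x : FiniteAdeleRing (𝓞 K) K => x v :=
    RestrictedProduct.continuous_eval v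
  exact h1.comp continuous_snd

/-- The component at an infinite place is continuous on the adeles. -/
theorem continuous_infHom409 (w : InfinitePlace K) :
    Continuous (T5.infHom (K := K) w) := by
  have h1 : Continuous (InfinitePlace.Completion.extensionEmbedding w) :=
    (InfinitePlace.Completion.isometry_extensionEmbedding w).continuous
  have h2 : Continuous fun x : InfiniteAdeleRing K => x w :=
    continuous_apply (A := fun v : InfinitePlace K => v.Completion) w
  exact h1.comp (h2.comp continuous_fst)

/-- `GL_n` of a continuous ring homomorphism is continuous. -/
theorem continuous_glMap409 {n : Type} [Fintype n] [DecidableEq n]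
    {R S : Type} [CommRing R] [CommRing S] [TopologicalSpace R] [TopologicalSpace S]
    [IsTopologicalRing R] [IsTopologicalRing S] (f : R →+* S) (hf : Continuous f) :
    Continuous (Matrix.GeneralLinearGroup.map (n := n) f) := by
  have hm : Continuous ((RingHom.mapMatrix (m := n) f).toMonoidHom) := by
    have : Continuous fun A : Matrix n n R => A.map f := continuous_id.matrix_map hf
    exact this
  exact Continuous.units_map ((RingHom.mapMatrix (m := n) f).toMonoidHom) hm

theorem continuous_finGL409 (v : HeightOneSpectrum (𝓞 K)) :
    Continuous (finGL305 (K := K) v) :=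
  continuous_glMap409 (T5.finHom v) (continuous_finHom409 v)

theorem continuous_infGL409 (w : InfinitePlace K) :
    Continuous (infGL305 (K := K) w) :=
  continuous_glMap409 (T5.infHom w) (continuous_infHom409 w)

variable (K)

/-- **ASSET LEAF FD.2 = COMP-CONT of helper558's cut of `FactDownC305`: PROVED.** -/
theorem compContC409 : Fermat.Agent.LT.T7.H558.CompContC558 K :=
  ⟨fun v => continuous_finGL409 v, fun w => continuous_infGL409 w⟩

end Fermat.Agent.LT.T7.H409

end
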