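import Fermat.Agent.LT.T7.H298.MatchQCut

/-!
# Row LT, tower T7, leaf T7.L2Q.1.H1.5.2 `MQ298.ArchVanQC298` (helper409): PROVED

OFF-MAIN.  No hole, nothing assumed.

    archVanQC409 : MQ298.ArchVanQC298

Vanishing at the real place along the ray: if `γ_∞` is not a norm from `GL₂(ℂ)` and `f` is
matched (`T6.IsArchMatch`), the local cut-off integral at `(γ r^j)_∞` vanishes for all `j`.

Proof.  `T5.IsRayGen r`: the component of `r` at the infinite place of `ℚ` is the scalar matrix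
`t > 0` (in `ℂ`), so the real component `reGLQ298 r` is the scalar matrix `t` in `GL₂(ℝ)`
(`extensionEmbeddingOfIsReal_apply`): `(γ r^j)_∞ = γ_∞ c`, `c = t^j > 0` a scalar.  Then
`γ_∞ c` is regular (`disc (γ c) = c² disc γ`, `disc γ_∞` is the image of `disc γ ≠ 0`), has the
centraliser of `γ_∞` (`twCentSub_mul_central409`; the Haar measure and the cut-off function are
transported along the equality of the subgroups), and is not a norm
(`isNormFrom_of_mul_scalar409`: if `N δ ∼ γ_∞ c` then `N (δ q⁻¹) ∼ γ_∞` for the scalar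
`q = √c`).  Second clause of `T6.IsArchMatch`.
-/

set_option autoImplicit false
set_option linter.unusedSectionVars false

open AutomorphicForm IsDedekindDomain NumberField MeasureTheory
open scoped ComplexConjugate

noncomputable section

namespace Fermat.Agent.LT.T7.H409

open Fermat.Agent.LT.H556 Fermat.Agent.LT.H556.A0 Fermat.Agent.LT.T7 Fermat.Agent.LT.T7.H305
open Fermat.Agent.LT.T7.MQ298

/-! ## Group theory: central elements -/

/-- The centraliser does not change under multiplication by a central element. -/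
theorem twCentSub_mul_central409 {H : Type} [Group H] (g w : H) (hw : ∀ x : H, w * x = x * w) :
    T6.twCentSub (MonoidHom.id H) (g * w) = T6.twCentSub (MonoidHom.id H) g := by
  ext x
  show x⁻¹ * (g * w) * (MonoidHom.id H) x = g * w ↔ x⁻¹ * g * (MonoidHom.id H) x = g
  have h1 : x⁻¹ * (g * w) * x = (x⁻¹ * g * x) * w := by
    rw [mul_assoc, mul_assoc, hw x, ← mul_assoc, ← mul_assoc]
  show x⁻¹ * (g * w) * x = g * w ↔ x⁻¹ * g * x = g
  rw [h1]
  exact mul_left_inj w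

/-- Conjugacy is compatible with multiplication by a central element. -/
theorem isConj_mul_central409 {H : Type} [Group H] {a b : H} (w : H)
    (hw : ∀ x : H, w * x = x * w) (h : IsConj a b) : IsConj (a * w) (b * w) := by
  rw [isConj_iff] at h ⊢
  obtain ⟨c, hc⟩ := h
  refine ⟨c, ?_⟩
  rw [← hc]
  calc c * (a * w) * c⁻¹ = c * a * (w * c⁻¹) := by group
    _ = c * a * (c⁻¹ * w) := by rw [hw c⁻¹]
    _ = c * a * c⁻¹ * w := by group

/-! ## The discriminant -/

theorem disc_def409 {R : Type} [CommRing R] (γ : GL (Fin 2) R) :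
    T6.disc γ = (γ : Matrix (Fin 2) (Fin 2) R).trace ^ 2
      - 4 * (γ : Matrix (Fin 2) (Fin 2) R).det :=
  rfl

theorem disc_mul_scalar409 {R : Type} [CommRing R] (γ : GL (Fin 2) R) (c : Rˣ) :
    T6.disc (γ * Matrix.GeneralLinearGroup.scalar (Fin 2) c) = (c : R) ^ 2 * T6.disc γ := by
  rw [disc_def409, disc_def409]
  have hm : ((γ * Matrix.GeneralLinearGroup.scalar (Fin 2) c : GL (Fin 2) R) :
      Matrix (Fin 2) (Fin 2) R) = (c : R) • (γ : Matrix (Fin 2) (Fin 2) R) := by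
    rw [Units.val_mul, Matrix.GeneralLinearGroup.coe_scalar]
    ext i j
    simp [Matrix.mul_apply, Matrix.diagonal_apply, mul_comm]
  rw [hm, Matrix.trace_smul, Matrix.det_smul]
  simp only [Fintype.card_fin, smul_eq_mul]
  ring

theorem disc_map409 {R S : Type} [CommRing R] [CommRing S] (φ : R →+* S) (γ : GL (Fin 2) R) :
    T6.disc (Matrix.GeneralLinearGroup.map φ γ) = φ (T6.disc γ) := by
  rw [disc_def409, disc_def409]
  have ht : ((Matrix.GeneralLinearGroup.map φ γ : GL (Fin 2) S) :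
      Matrix (Fin 2) (Fin 2) S).trace = φ ((γ : Matrix (Fin 2) (Fin 2) R).trace) := by
    rw [Matrix.trace_fin_two, Matrix.trace_fin_two, map_add]
    rfl
  have hd : ((Matrix.GeneralLinearGroup.map φ γ : GL (Fin 2) S) :
      Matrix (Fin 2) (Fin 2) S).det = φ ((γ : Matrix (Fin 2) (Fin 2) R).det) := by
    rw [Matrix.det_fin_two, Matrix.det_fin_two, map_sub, map_mul, map_mul]
    rfl
  rw [ht, hd]
  simp only [map_sub, map_mul, map_pow, map_ofNat]


/-! ## The real component -/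

theorem reHomQ298_coe409 (a : Adl ℚ) :
    ((reHomQ298 a : ℝ) : ℂ) = T5.infHom Rat.infinitePlace a :=
  InfinitePlace.Completion.extensionEmbeddingOfIsReal_apply Rat.isReal_infinitePlace _

/-- The real component of the generator of the ray is a positive scalar matrix. -/
theorem reGLQ_rayGen409 (r : G ℚ) (hr : T5.IsRayGen r) :
    ∃ u : ℝˣ, 0 < (u : ℝ) ∧ reGLQ298 r = Matrix.GeneralLinearGroup.scalar (Fin 2) u := by
  obtain ⟨_, t, ht, _, hinf⟩ := hr
  refine ⟨Units.mk0 t ht.ne', ht, ?_⟩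
  ext i j
  have h1 : ((reHomQ298 ((r : Matrix (Fin 2) (Fin 2) (Adl ℚ)) i j) : ℝ) : ℂ)
      = (Matrix.diagonal (fun _ : Fin 2 => (t : ℂ))) i j := by
    rw [reHomQ298_coe409, ← hinf Rat.infinitePlace]
    rfl
  show reHomQ298 ((r : Matrix (Fin 2) (Fin 2) (Adl ℚ)) i j)
    = (Matrix.scalar (Fin 2) t) i j
  by_cases hij : i = j
  · subst hij
    rw [Matrix.diagonal_apply_eq] at h1
    rw [Matrix.scalar_apply, Matrix.diagonal_apply_eq]
    exact_mod_cast h1
  · rw [Matrix.diagonal_apply_ne _ hij] at h1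
    rw [Matrix.scalar_apply, Matrix.diagonal_apply_ne _ hij]
    exact_mod_cast h1

/-- The real component of `γ r^j`. -/
theorem reGLQ_ray409 (r : G ℚ) (hr : T5.IsRayGen r) (g : G ℚ) (j : ℤ) :
    ∃ c : ℝˣ, 0 < (c : ℝ) ∧
      reGLQ298 (g * r ^ j) = reGLQ298 g * Matrix.GeneralLinearGroup.scalar (Fin 2) c := by
  obtain ⟨u, hu, hur⟩ := reGLQ_rayGen409 r hr
  refine ⟨u ^ j, ?_, ?_⟩
  · rw [Units.val_zpow_eq_zpow_val]
    exact zpow_pos hu j
  · rw [map_mul, map_zpow, hur, map_zpow]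

/-! ## Norms -/

theorem twNorm_two409 {R : Type} [CommRing R] (s : R ≃+* R) (δ : GL (Fin 2) R) :
    T6.twNorm s 2 δ = δ * T6.glAut s δ := by
  show δ * T6.glAut s (δ * T6.glAut s 1) = δ * T6.glAut s δ
  rw [map_one, mul_one]

/-- A positive real scalar is a norm from `ℂ`: `γ c` is a norm iff `γ` is. -/
theorem isNormFrom_of_mul_scalar409 (γ : GL (Fin 2) ℝ) (c : ℝˣ) (hc : 0 < (c : ℝ))
    (h : T6.IsNormFrom 2 (algebraMap ℝ ℂ) (starRingAut : ℂ ≃+* ℂ)
      (γ * Matrix.GeneralLinearGroup.scalar (Fin 2) c)) :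
    T6.IsNormFrom 2 (algebraMap ℝ ℂ) (starRingAut : ℂ ≃+* ℂ) γ := by
  obtain ⟨δ, hδ⟩ := h
  -- the square root of `c`
  have hs : 0 < Real.sqrt (c : ℝ) := Real.sqrt_pos.mpr hc
  set s : ℝˣ := Units.mk0 (Real.sqrt (c : ℝ)) hs.ne' with hsdef
  have hss : s * s = c := by
    ext
    show Real.sqrt (c : ℝ) * Real.sqrt (c : ℝ) = c
    exact Real.mul_self_sqrt hc.le
  set w : ℂˣ := Units.map (algebraMap ℝ ℂ : ℝ →+* ℂ).toMonoidHom s with hwdef
  set q : GL (Fin 2) ℂ := Matrix.GeneralLinearGroup.scalar (Fin 2) w with hqdef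
  have hqc : ∀ x : GL (Fin 2) ℂ, q * x = x * q :=
    fun x => Matrix.GeneralLinearGroup.scalar_commute w x
  have hqinv : ∀ x : GL (Fin 2) ℂ, q⁻¹ * x = x * q⁻¹ := by
    intro x
    have := hqc x
    calc q⁻¹ * x = q⁻¹ * (x * q) * q⁻¹ := by group
      _ = q⁻¹ * (q * x) * q⁻¹ := by rw [this]
      _ = x * q⁻¹ := by group
  have hqσ : T6.glAut (starRingAut : ℂ ≃+* ℂ) q = q := by
    show Matrix.GeneralLinearGroup.map ((starRingAut : ℂ ≃+* ℂ) : ℂ →+* ℂ)
      (Matrix.GeneralLinearGroup.scalar (Fin 2) w) = _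
    rw [Matrix.GeneralLinearGroup.map_scalar]
    congr 1
    ext
    show (starRingAut : ℂ ≃+* ℂ) ((Real.sqrt (c : ℝ) : ℝ) : ℂ) = ((Real.sqrt (c : ℝ) : ℝ) : ℂ)
    exact Complex.conj_ofReal _
  have hqq : Matrix.GeneralLinearGroup.map (algebraMap ℝ ℂ)
      (Matrix.GeneralLinearGroup.scalar (Fin 2) c) = q * q := by
    rw [Matrix.GeneralLinearGroup.map_scalar, hqdef, ← map_mul, hwdef, ← map_mul, hss]
    rfl
  refine ⟨δ * q⁻¹, ?_⟩
  have h1 : T6.twNorm (starRingAut : ℂ ≃+* ℂ) 2 (δ * q⁻¹)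
      = T6.twNorm (starRingAut : ℂ ≃+* ℂ) 2 δ * (q * q)⁻¹ := by
    rw [twNorm_two409, twNorm_two409, map_mul, map_inv, hqσ]
    calc δ * q⁻¹ * (T6.glAut (starRingAut : ℂ ≃+* ℂ) δ * q⁻¹)
        = δ * (q⁻¹ * T6.glAut (starRingAut : ℂ ≃+* ℂ) δ) * q⁻¹ := by group
      _ = δ * (T6.glAut (starRingAut : ℂ ≃+* ℂ) δ * q⁻¹) * q⁻¹ := by rw [hqinv]
      _ = δ * T6.glAut (starRingAut : ℂ ≃+* ℂ) δ * (q * q)⁻¹ := by group
  have h2 : Matrix.GeneralLinearGroup.map (algebraMap ℝ ℂ) γ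
      = Matrix.GeneralLinearGroup.map (algebraMap ℝ ℂ)
          (γ * Matrix.GeneralLinearGroup.scalar (Fin 2) c) * (q * q)⁻¹ := by
    rw [map_mul, hqq]
    group
  rw [h1, h2]
  refine isConj_mul_central409 (q * q)⁻¹ ?_ hδ
  intro x
  have hcx : Commute q x := hqc x
  exact ((hcx.mul_left hcx).inv_left).eq


/-! ## Regularity at the real place -/

/-- The real component of a regular rational element is regular. -/
theorem isReg_reGLQ409 (γ : GL (Fin 2) ℚ) (hγ : T6.IsReg γ) :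
    T6.IsReg (reGLQ298 (T5.ratG γ)) := by
  have h0 : T6.disc γ ≠ 0 := (isUnit_iff_ne_zero.mp hγ)
  have h1 : reGLQ298 (T5.ratG γ)
      = Matrix.GeneralLinearGroup.map (reHomQ298.comp (algebraMap ℚ (Adl ℚ))) γ := rfl
  have h2 : T6.disc (reGLQ298 (T5.ratG γ))
      = (reHomQ298.comp (algebraMap ℚ (Adl ℚ))) (T6.disc γ) := by
    rw [h1, disc_map409]
  have h3 : T6.disc (reGLQ298 (T5.ratG γ)) ≠ 0 := by
    rw [h2]
    exact (map_ne_zero_iff _ (RingHom.injective _)).mpr h0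
  exact isUnit_iff_ne_zero.mpr h3

/-- Regularity is stable under multiplication by a scalar (over a field). -/
theorem isReg_mul_scalar409 (γ : GL (Fin 2) ℝ) (c : ℝˣ) (hγ : T6.IsReg γ) :
    T6.IsReg (γ * Matrix.GeneralLinearGroup.scalar (Fin 2) c) := by
  have h0 : T6.disc γ ≠ 0 := (isUnit_iff_ne_zero.mp hγ)
  have h1 : T6.disc (γ * Matrix.GeneralLinearGroup.scalar (Fin 2) c) ≠ 0 := by
    rw [disc_mul_scalar409]
    exact mul_ne_zero (pow_ne_zero 2 c.ne_zero) h0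
  exact isUnit_iff_ne_zero.mpr h1

/-! ## The leaf -/

/-- The second clause of `T6.IsArchMatch`, for a subgroup EQUAL to the centraliser. -/
theorem archMatch_van409 (μr : @Measure (GL (Fin 2) ℝ) (borel _))
    (μc : @Measure (GL (Fin 2) ℂ) (borel _)) (Φ : GL (Fin 2) ℂ → ℂ) (f : GL (Fin 2) ℝ → ℂ)
    (hm : T6.IsArchMatch μr μc Φ f) (γ' : GL (Fin 2) ℝ) (hreg : T6.IsReg γ')
    (hnn : ¬ T6.IsNormFrom 2 (algebraMap ℝ ℂ) (starRingAut : ℂ ≃+* ℂ) γ')
    (S : Subgroup (GL (Fin 2) ℝ)) (hS : S = T6.twCentSub (MonoidHom.id (GL (Fin 2) ℝ)) γ')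
    (μT : @Measure S (borel _)) (hμT : @Measure.IsHaarMeasure _ _ _ (borel _) μT)
    (β : GL (Fin 2) ℝ → ℝ) (hβc : Continuous β) (hβ0 : ∀ x, 0 ≤ β x)
    (hβ1 : ∀ x : GL (Fin 2) ℝ,
      @integral _ _ _ _ (borel _) μT (fun t : S => β ((t : GL (Fin 2) ℝ) * x)) = 1) :
    locInt305 μr β f γ' = 0 := by
  subst hS
  exact (hm γ' hreg μT hμT β hβc hβ0 hβ1).2 hnn

/-- **LEAF Q2.7.9r = ARCH-VAN of helper298's cut of `CutIntQC298`: PROVED.** -/
theorem archVanQC409 : Fermat.Agent.LT.T7.MQ298.ArchVanQC298 := by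
  intro R hR μr μc Φ f hm γ hEll hnn μtr βr hμtr hcut j
  obtain ⟨c, hc, hcj⟩ := reGLQ_ray409 R.r hR.ray (T5.ratG γ) j
  rw [hcj]
  have hreg0 : T6.IsReg (reGLQ298 (T5.ratG γ)) := isReg_reGLQ409 γ hEll.1
  have hreg : T6.IsReg (reGLQ298 (T5.ratG γ) * Matrix.GeneralLinearGroup.scalar (Fin 2) c) :=
    isReg_mul_scalar409 _ c hreg0
  have hnn' : ¬ T6.IsNormFrom 2 (algebraMap ℝ ℂ) (starRingAut : ℂ ≃+* ℂ)
      (reGLQ298 (T5.ratG γ) * Matrix.GeneralLinearGroup.scalar (Fin 2) c) :=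
    fun h => hnn (isNormFrom_of_mul_scalar409 _ c hc h)
  have hcent : cent305 (reGLQ298 (T5.ratG γ))
      = T6.twCentSub (MonoidHom.id (GL (Fin 2) ℝ))
          (reGLQ298 (T5.ratG γ) * Matrix.GeneralLinearGroup.scalar (Fin 2) c) :=
    (twCentSub_mul_central409 _ _
      (fun x => Matrix.GeneralLinearGroup.scalar_commute c x)).symm
  exact archMatch_van409 μr μc Φ f hm _ hreg hnn' (cent305 (reGLQ298 (T5.ratG γ))) hcent
    μtr hμtr βr hcut.1 hcut.2.1 hcut.2.2

end Fermat.Agent.LT.T7.H409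

end
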