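import Mathlib
import Fermat.Agent.LT.T7.H87.BaseAQSpec
import Fermat.Agent.LT.T3.M.Explicit

/-!
# Row LT, tower T7, quadratic step, leaf T7.L2Q.1.H2a.A.0.U `BQ87.UpGoodQC87` (cut of helper87,
# registry row 3089, helper409): PROVED, VERBATIM

OFF-MAIN.  No hole, nothing assumed.  ADDITIVE (new names only, suffix `409`, namespace
`Fermat.Agent.LT.T7.H409`).

    upGoodQC409 F : BQ87.UpGoodQC87 F                                  (UNCONDITIONAL)

Statement of `T7/H87/BaseAQSpec.lean` (helper87@ddfedf375, sha256 6471b15c): the PORT over `ℚ`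
(`K' = F` imaginary quadratic, `ℓ = 2`) of the cubic leaf `B981.UpGoodC981` (registry row 2911,
proved by helper952, `T7/H952/UpGood.lean` 74c49223).

## Proof (the argument of helper952, for `F`)

`F` is totally complex (`IsImagQuad F`).  Plug of the closed `T3.M.ekOfPairM_c` for `F`
(helper14, `T3/M/Explicit.lean`): the sum upstairs of the data is a member of `pairSpanMS`
(coefficients `1`: `symA'`, `symβ'`, `sat_up`, `test_up`, `smooth_up`, `abel_up`, `acts_up`),
the coordinates telescope (`tel_up`), the frame is `frame_up`, the Haar measure of `GL₂(ℂ)` is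
the field `D.μc` (`haar_c`).  The scalar: `c₁ C = 1` if `C.b w = 0` for some `w ∈ P'` (then the
eigenfunctions vanish: `T3.H732.eq_zero_of_b_eq_zero732`), and `c (root1) (root2) C.m`
otherwise; an eigenfunction of the base level is `IsMeanLevel` for the level `𝔫 𝒪_F ≤ 𝔑₀`
(`IsLevQ57.level_g`); `c₁ ≠ 0` on the class of `Φ`: `ft_ne` and `good`.

The hypotheses `HasSqrtNegThree F`, `IsCuspAdelicSph0`, `ConstOnFibresQ`, `ekMulti`, `IsRamQ60`,
`IsLevFnQ57`, `c ≠ 0` of the Prop are not used.  No equation lemma of a foreign definition is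
realised here (`simp only` with the lemmas `if_pos`, `if_neg`, `one_mul`, `mul_zero`,
`integral_zero`, `not_exists`, `not_and` of Lean / Mathlib).
-/

set_option autoImplicit false
set_option linter.style.haveILetI false
set_option linter.unusedVariables false

open AutomorphicForm IsDedekindDomain NumberField MeasureTheory
open scoped ComplexConjugate

noncomputable section

namespace Fermat.Agent.LT.T7.H409

open Fermat.Agent.LT Fermat.Agent.LT.H556 Fermat.Agent.LT.H556.A0 Fermat.Agent.LT.T7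
  Fermat.Agent.LT.T7.H305 Fermat.Agent.LT.T7.L2Q Fermat.Agent.LT.T7.H893
  Fermat.Agent.LT.T7.H962 Fermat.Agent.LT.T7.H732 Fermat.Agent.LT.T7.MQ298
  Fermat.Agent.LT.T7.CQ801 Fermat.Agent.LT.T7.PQ484 Fermat.Agent.LT.T7.BQ87

attribute [local instance] Fermat.Agent.LT.T5.instMeasurableSpaceG

section OneField

variable {K : Type} [Field K] [NumberField K]

/-- The level groups are monotone in the level. -/
theorem inLevelGroup_mono409 {𝔑 𝔑₀ : Ideal (𝓞 K)} (hle : 𝔑 ≤ 𝔑₀) {u : G K}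
    (hu : InLevelGroup 𝔑 u) : InLevelGroup 𝔑₀ u := by
  have hmono : ∀ v : HeightOneSpectrum (𝓞 K), idealClosure 𝔑 v ⊆ idealClosure 𝔑₀ v :=
    fun v => closure_mono (Set.image_mono hle)
  exact ⟨hu.1, fun v i j => ⟨hmono v (hu.2 v i j).1, hmono v (hu.2 v i j).2⟩⟩

/-- An eigenfunction of the level `𝔑₀` is a joint eigenfunction of the sphere means of every
smaller level. -/
theorem isMeanLevel_of_isEigFn409 {𝔑 𝔑₀ : Ideal (𝓞 K)} (hle : 𝔑 ≤ 𝔑₀) {r : G K} {l : ℕ}
    {o : ℕ → HeightOneSpectrum (𝓞 K)} {χ : G K → ℂ} {C : EigData K}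
    (h : IsEigFn 𝔑₀ r l o χ C) : T3.M.IsMeanLevel K 𝔑 C.m χ where
  cont := h.inv.cusp.cont
  level_inv := fun u hu g => h.inv.cusp.aut.level_inv u (inLevelGroup_mono409 hle hu) g
  arch_scalar := h.inv.arch_scalar
  arch_compact := fun w k hk g =>
    (h.inv.cusp.aut.arch_compact w k hk g).trans (one_mul (χ g))
  mean := h.mean

end OneField

section Leaf

variable (F : Type) [Field F] [NumberField F]

/-- **LEAF A.0.U over `ℚ` = UP** (`BQ87.UpGoodQC87`), VERBATIM. -/
theorem upGoodQC409 : UpGoodQC87 F := by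
  intro _h3 hquad Φ _hcusp _hconst _hek B hB _hram 𝔫 h𝔫 T₀ n n₀ m _hlev c₀ _hc₀ D hD
  have hcx : ∀ w : InfinitePlace F, w.IsComplex := hquad.2
  have hout : ∀ w ∈ D.P', w ∉ B.S' := hD.out
  have hlevg : upI (K' := F) 𝔫 ≤ B.𝔑₀ := h𝔫.level_g
  show T5.IsTestFn (upI (K' := F) 𝔫) T5.trivType (D.up (upI (K' := F) 𝔫)) ∧
    T5.IsEK B.R'.μ (D.up (upI (K' := F) 𝔫)) ∧
    T5.IsEK B.R'.μ (T5.adjointFn (D.up (upI (K' := F) 𝔫))) ∧
    T3.M.IsSuppAtM F (upI (K' := F) 𝔫) D.P' (D.up (upI (K' := F) 𝔫)) ∧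
    ∃ c₁ : EigData F → ℂ,
      (∀ (χ : G F → ℂ) (C : EigData F), IsEigFn B.𝔑₀ B.R'.r 2 B.o χ C →
        ∀ y : G F, T5.Rconv B.R'.μ (D.up (upI (K' := F) 𝔫)) χ y = c₁ C * χ y) ∧
      ∀ C : EigData F, C.AgreeOut B.S' (eigOf Φ) → c₁ C ≠ 0
  obtain ⟨κ₀, hκ₀, hall⟩ := T3.M.ekOfPairM_c F hcx B.R'.μ hB.frame'.frame.haar D.μc hD.haar_c
    D.κc hD.κc_ne (upI (K' := F) 𝔫) D.P' D.e' D.a₀' D.α' hD.frame_up
  -- the sums are a member of `pairSpanMS`
  have hmemS : (D.crdUp, D.up (upI (K' := F) 𝔫))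
      ∈ T3.M.pairSpanMS F D.μc D.κc (upI (K' := F) 𝔫) D.P' := by
    have h : ((D.crdUp, D.up (upI (K' := F) 𝔫)) :
        (T3.M.CoordM F D.P' → ℂ) × (G F → ℂ))
        = ∑ i : Fin D.N, ((T3.M.pureCoordM F D.P' (D.A' i) (D.β' i),
            T3.M.pureFnM F (upI (K' := F) 𝔫) D.P' (D.φ₀ i) (D.Φ i)) :
            (T3.M.CoordM F D.P' → ℂ) × (G F → ℂ)) := by
      refine Prod.ext ?_ ?_
      · rw [Prod.fst_sum]
        funext p
        rw [Finset.sum_apply]
        rfl
      · rw [Prod.snd_sum]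
        funext g
        rw [Finset.sum_apply]
        rfl
    rw [h]
    refine Submodule.sum_mem _ fun i _ => Submodule.subset_span ?_
    exact ⟨D.A' i, D.β' i, D.φ₀ i, D.Φ i, hD.symA' i, hD.symβ' i, hD.sat_up i, hD.test_up i,
      hD.smooth_up i, hD.abel_up i, hD.acts_up i, rfl⟩
  obtain ⟨h1, h2, h3, h4, c, hc, hop⟩ := hall D.crdUp (D.up (upI (K' := F) 𝔫))
    (T3.M.pairSpanMS_le D.μc D.κc _ _ hmemS) hD.tel_up
  refine ⟨h1, h2, h3, h4, ?_⟩
  classical
  refine ⟨fun C => if ∃ w ∈ D.P', C.b w = 0 then 1 else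
    c (fun w => T3.H732.root1_732 (C.a w) (C.b w))
      (fun w => T3.H732.root2_732 (C.a w) (C.b w)) C.m, ?_, ?_⟩
  · -- the operator
    intro χ C hχ y
    have hheck : ∀ w ∈ D.P', IsHeckeEigenAt χ w (C.a w) (C.b w) := fun w hw =>
      hχ.hecke w (fun hdvd => hout w hw ((hB.mem_S' w).2 hdvd))
    by_cases hb : ∃ w ∈ D.P', C.b w = 0
    · simp only [if_pos hb, one_mul]
      obtain ⟨w, hw, hbw⟩ := hb
      have hecke' := hheck w hw
      rw [hbw] at hecke'
      have hzero : ∀ g : G F, χ g = 0 :=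
        T3.H732.eq_zero_of_b_eq_zero732 F (T3.inScalarUnif_u F) hecke'
      rw [hzero y]
      show ∫ x, D.up (upI (K' := F) 𝔫) x * χ (y * x) ∂B.R'.μ = 0
      simp only [hzero, mul_zero, integral_zero]
    · simp only [if_neg hb]
      simp only [not_exists, not_and] at hb
      exact hop χ C.m (isMeanLevel_of_isEigFn409 hlevg hχ) C.a C.b _ _ hheck
        (fun w _ => (T3.H732.roots_spec732 (C.a w) (C.b w)).1)
        (fun w _ => (T3.H732.roots_spec732 (C.a w) (C.b w)).2) hb y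
  · -- non-vanishing on the class of `Φ`
    intro C hC
    by_cases hb : ∃ w ∈ D.P', C.b w = 0
    · simp only [if_pos hb]
      exact one_ne_zero
    · simp only [if_neg hb]
      simp only [not_exists, not_and] at hb
      have hsph : T3.M.IsSph0Param F C.m := fun w d hd => hC.2 w d hd
      rw [hc hmemS _ _ C.m hsph]
      have hr₁ : ∀ w ∈ D.P', T3.H732.root1_732 (C.a w) (C.b w) ≠ 0 := fun w hw h =>
        hb w hw (by rw [← (T3.H732.roots_spec732 (C.a w) (C.b w)).2, h, zero_mul])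
      have hr₂ : ∀ w ∈ D.P', T3.H732.root2_732 (C.a w) (C.b w) ≠ 0 := fun w hw h =>
        hb w hw (by rw [← (T3.H732.roots_spec732 (C.a w) (C.b w)).2, h, mul_zero])
      refine mul_ne_zero hκ₀ (hD.ft_ne _ _ hr₁ hr₂ fun z hz => ?_)
      refine hD.good z fun w hw => ?_
      obtain ⟨hs, hp⟩ := T3.H732.roots_spec732 (C.a w) (C.b w)
      have hag := hC.1 w (hout w hw)
      have ha : C.a w = Φ.a w := hag.1
      have hb' : C.b w = Φ.b w := hag.2
      rw [← ha, ← hb']
      rcases hz w hw with h | h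
      · rw [h]
        linear_combination (T3.H732.root1_732 (C.a w) (C.b w)) * hs - hp
      · rw [h]
        linear_combination (T3.H732.root2_732 (C.a w) (C.b w)) * hs - hp

end Leaf

end Fermat.Agent.LT.T7.H409

end
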