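import Mathlib
import Fermat.Agent.LT.T7.Level2
import Fermat.Agent.LT.T7.H543.HGroup
import Fermat.Agent.LT.T2.H566.CuspSub
import Fermat.Agent.LT.T2.H429.Loc
import Fermat.Agent.LT.A2.H751.LocalCont
import Fermat.Agent.LT.T1.H886.AddFundDom

/-!
# Row LT, tower T7: the double coset operator `[U g U]` preserves the invariant eigenfunctions
# (helper409, OFF-MAIN) -- CORE, vocabulary of `T7/Level2.lean`

`cosetOp_isEigFn409`: let `g ∈ GL₂(𝔸_K)` be trivial at the infinite places, at the finite places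
prime to `𝔫` and at the places `o j`, `j < l`; let `Hg` be a full system of representatives of
`U(𝔫) g U(𝔫) / U(𝔫)`.  If `ψ` is an invariant eigenfunction with data `C` (`IsEigFn 𝔫 r l o ψ C`),
so is `cosetOp Hg ψ = ∑_{h ∈ Hg} ψ(· h)`.  UNCONDITIONAL, every number field.

* invariance under `U(𝔫)` and under the Iwahori elements `k` along the orbit: `κ h κ'⁻¹ ∈ U g U`
  (`κ = u`, `κ' = 1`, resp. `κ = κ' = k`: `k` normalises `U(𝔫)` and commutes with `g`), so
  `h ↦ (the representative of κ h κ'⁻¹)` is a permutation of `Hg` (`perm_sum409s`);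
* `K_∞`-type, ray, positive scalars, sphere means: the members of `Hg` are trivial at infinity,
  so they commute with the elements trivial at the finite places; the sum is taken out of the
  integrals (the integrands are continuous: `A2.H751.continuous_of_local751`);
* Hecke operators at `v ∤ 𝔫`: `h = t · h_v`, `h_v ∈ U(𝔫)` the local part of `h` at `v`
  (`𝔫 𝒪_v = 𝒪_v`), `t` trivial at `v`;
* cuspidality: the constant term integrand is integrable (`T2.H566.integrable_unip566`,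
  `T1.H886.addFundDomC886`).
-/

set_option autoImplicit false
set_option linter.unusedSectionVars false

open IsDedekindDomain NumberField MeasureTheory

noncomputable section

namespace Fermat.Agent.LT.T7.H409

open Fermat.Agent.LT.H556 Fermat.Agent.LT.H556.A0 Fermat.Agent.LT Fermat.Agent.LT.T7
open Fermat.Agent.LT.H129

variable {K : Type} [Field K] [NumberField K]

/-! ## 1. Commutation -/

/-- An element trivial at the finite places commutes with an element trivial at infinity. -/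
theorem comm_fin_inf409s {k h : G K} (hk : ∀ v : HeightOneSpectrum (𝓞 K), TrivAtFin v k)
    (hh : ∀ w : InfinitePlace K, TrivAtInf w h) : k * h = h * k :=
  T2.H429.commute_of_disjoint429 (fun w => Or.inr ((trivAtInf_iff129 w h).1 (hh w)))
    (fun v => Or.inl ((trivAtFin_iff129 v k).1 (hk v)))

/-- The members of a double coset system of an element trivial at infinity are trivial at
infinity. -/
theorem mem_trivAtInf409s {𝔫 : Ideal (𝓞 K)} {g : G K} {Hg : Finset (G K)}
    (hgI : ∀ w : InfinitePlace K, TrivAtInf w g) (hH : IsDblCosetSystem 𝔫 g Hg) {h : G K}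
    (hh : h ∈ Hg) (w : InfinitePlace K) : TrivAtInf w h := by
  obtain ⟨u₁, u₂, hu₁, hu₂, rfl⟩ := hH.1 h hh
  exact H543.trivAtInf_mul543 (H543.trivAtInf_mul543 (hu₁.1 w) (hgI w)) (hu₂.1 w)

/-! ## 2. The permutation of the representatives -/

/-- **The permutation lemma.**  If `κ h κ'⁻¹ ∈ U g U` for every representative `h`, `κ'`
normalises `U` and `ψ` is right invariant under `U` and `κ'`, then
`∑_h ψ(x κ h) = ∑_h ψ(x h)`. -/
theorem perm_sum409s {𝔫 : Ideal (𝓞 K)} {g : G K} {Hg : Finset (G K)}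
    (hmul : ∀ u u' : G K, InLevelGroup 𝔫 u → InLevelGroup 𝔫 u' → InLevelGroup 𝔫 (u * u'))
    (hinv : ∀ u : G K, InLevelGroup 𝔫 u → InLevelGroup 𝔫 u⁻¹)
    (hH : IsDblCosetSystem 𝔫 g Hg) (κ κ' : G K)
    (hconj : ∀ u : G K, InLevelGroup 𝔫 u → InLevelGroup 𝔫 (κ'⁻¹ * u * κ'))
    (hκ : ∀ h ∈ Hg, ∃ u₁ u₂ : G K, InLevelGroup 𝔫 u₁ ∧ InLevelGroup 𝔫 u₂ ∧
      κ * h * κ'⁻¹ = u₁ * g * u₂)
    (ψ : G K → ℂ) (hψU : ∀ u : G K, InLevelGroup 𝔫 u → ∀ x : G K, ψ (x * u) = ψ x)
    (hψκ : ∀ y : G K, ψ (y * κ') = ψ y) (x : G K) :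
    ∑ h ∈ Hg, ψ (x * κ * h) = ∑ h ∈ Hg, ψ (x * h) := by
  classical
  have star : ∀ h ∈ Hg, ∃ h' : G K, h' ∈ Hg ∧ ∃ a : G K, InLevelGroup 𝔫 a ∧
      κ * h = h' * a * κ' := by
    intro h hh
    obtain ⟨u₁, u₂, hu₁, hu₂, e⟩ := hκ h hh
    obtain ⟨h', hh', hu'⟩ := hH.2.2 u₁ hu₁
    refine ⟨h', hh', h'⁻¹ * (u₁ * g) * u₂, hmul _ _ hu' hu₂, ?_⟩
    calc κ * h = (κ * h * κ'⁻¹) * κ' := by group
      _ = (u₁ * g * u₂) * κ' := by rw [e]
      _ = h' * (h'⁻¹ * (u₁ * g) * u₂) * κ' := by group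
  choose! π hπ a ha he using star
  have hinj : Set.InjOn π (Hg : Set (G K)) := by
    intro h₁ hh₁ h₂ hh₂ e
    by_contra hne
    apply hH.2.1 h₁ hh₁ h₂ hh₂ hne
    have e1 := he h₁ hh₁
    have e2 := he h₂ hh₂
    have key : h₁⁻¹ * h₂ = κ'⁻¹ * ((a h₁)⁻¹ * a h₂) * κ' := by
      have h1 : h₁⁻¹ * h₂ = (κ * h₁)⁻¹ * (κ * h₂) := by group
      rw [h1, e1, e2, ← e]
      group
    rw [key]
    exact hconj _ (hmul _ _ (hinv _ (ha h₁ hh₁)) (ha h₂ hh₂))
  have hmaps : Set.MapsTo π (Hg : Set (G K)) (Hg : Set (G K)) := fun h hh => hπ h hh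
  have hsurj : Set.SurjOn π (Hg : Set (G K)) (Hg : Set (G K)) :=
    Finset.surjOn_of_injOn_of_card_le π hmaps hinj le_rfl
  refine Finset.sum_nbij π (fun h hh => hπ h hh) hinj hsurj (fun h hh => ?_)
  rw [mul_assoc, he h hh, ← mul_assoc, ← mul_assoc, hψκ, hψU _ (ha h hh)]

/-! ## 3. The closure of an ideal at a place prime to it -/

theorem integers_subset_idealClosure409s {𝔫 : Ideal (𝓞 K)} {v : HeightOneSpectrum (𝓞 K)}
    (hv : ¬ v.asIdeal ∣ 𝔫) {x : v.adicCompletion K} (hx : x ∈ v.adicCompletionIntegers K) :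
    x ∈ idealClosure 𝔫 v := by
  have h1 : ¬ 𝔫 ≤ v.asIdeal := fun h => hv (Ideal.dvd_iff_le.mpr h)
  obtain ⟨n₀, hn₀, hn₀v⟩ := SetLike.not_le_iff_exists.mp h1
  have hval : Valued.v (H543.emb543 v n₀) = 1 := by
    show Valued.v (algebraMap K (v.adicCompletion K) (algebraMap (𝓞 K) K n₀)) = 1
    rw [H543.val_algebraMap543]
    have hle := v.valuation_le_one (K := K) n₀
    have hnlt : ¬ v.valuation K (algebraMap (𝓞 K) K n₀) < 1 :=
      fun h => hn₀v ((v.valuation_lt_one_iff_mem n₀).mp h)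
    exact le_antisymm hle (not_lt.mp hnlt)
  have hmem : H543.emb543 v n₀ ∈ idealClosure 𝔫 v := subset_closure ⟨n₀, hn₀, rfl⟩
  have hne : H543.emb543 v n₀ ≠ 0 := by
    intro h
    rw [h, map_zero] at hval
    exact zero_ne_one hval
  have hxa : x * (H543.emb543 v n₀)⁻¹ ∈ v.adicCompletionIntegers K := by
    rw [HeightOneSpectrum.mem_adicCompletionIntegers, map_mul, map_inv₀, hval, inv_one, mul_one]
    exact (HeightOneSpectrum.mem_adicCompletionIntegers (𝓞 K) K v).mp hx
  have := H543.ic_mul543 hxa hmem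
  rwa [inv_mul_cancel_right₀ hne] at this

/-! ## 4. The local part at a place prime to the level -/

/-- For `v ∤ 𝔫` every member `h` of the double coset system is `t * u`, `t` trivial at `v` and
`u ∈ U(𝔫)`. -/
theorem exists_locPart409s {𝔫 : Ideal (𝓞 K)} {g : G K} {Hg : Finset (G K)}
    (hH : IsDblCosetSystem 𝔫 g Hg) {v : HeightOneSpectrum (𝓞 K)} (hv : ¬ v.asIdeal ∣ 𝔫)
    (hgv : TrivAtFin v g) {h : G K} (hh : h ∈ Hg) :
    ∃ t u : G K, TrivAtFin v t ∧ InLevelGroup 𝔫 u ∧ h = t * u := by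
  obtain ⟨u₁, u₂, hu₁, hu₂, e⟩ := hH.1 h hh
  rw [H543.inLevelGroup_iff543] at hu₁ hu₂
  have hgv1 : finComp v g = 1 := hgv
  have hgv' : finComp v g⁻¹ = 1 := H543.trivAtFin_inv543 hgv
  have hint : H543.IntM543 v (finComp v h) := by
    rw [e, H543.finComp_mul543, H543.finComp_mul543, hgv1, mul_one]
    exact H543.intM_mul543 (H543.intM_of_idM543 (hu₁.2 v).1) (H543.intM_of_idM543 (hu₂.2 v).1)
  have hint' : H543.IntM543 v (finComp v h⁻¹) := by
    have e' : h⁻¹ = u₂⁻¹ * g⁻¹ * u₁⁻¹ := by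
      rw [e]
      group
    rw [e', H543.finComp_mul543, H543.finComp_mul543, hgv', mul_one]
    exact H543.intM_mul543 (H543.intM_of_idM543 (hu₂.2 v).2) (H543.intM_of_idM543 (hu₁.2 v).2)
  have hu : InLevelGroup 𝔫 (locFin129 v (finCompHom129 v h)) := by
    rw [H543.inLevelGroup_iff543]
    refine ⟨fun w => (trivAtInf_iff129 w _).2 (infCompHom129_locFin129 v _ w), fun v' => ?_⟩
    by_cases hv' : v' = v
    · subst hv'
      constructor
      · intro i j
        apply integers_subset_idealClosure409s hv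
        rw [finComp_locFin129, coe_finCompHom129, Matrix.sub_apply]
        exact sub_mem (hint i j) (H543.intM_one543 i j)
      · intro i j
        apply integers_subset_idealClosure409s hv
        rw [← map_inv, finComp_locFin129, ← map_inv, coe_finCompHom129, Matrix.sub_apply]
        exact sub_mem (hint' i j) (H543.intM_one543 i j)
    · have h1 : finComp v' (locFin129 v (finCompHom129 v h)) = 1 :=
        (trivAtFin_iff129 v' _).2 (finCompHom129_locFin129_of_ne v _ hv')
      have h2 : finComp v' (locFin129 v (finCompHom129 v h))⁻¹ = 1 := H543.trivAtFin_inv543 h1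
      rw [h1, h2, sub_self]
      exact ⟨H543.idM_zero543 𝔫, H543.idM_zero543 𝔫⟩
  refine ⟨h * (locFin129 v (finCompHom129 v h))⁻¹, locFin129 v (finCompHom129 v h), ?_, hu,
    by group⟩
  rw [trivAtFin_iff129, map_mul, map_inv, finCompHom129_locFin129]
  exact mul_inv_cancel _

/-! ## 5. The sphere means -/

theorem continuous_rotZ409s : Continuous rotZ := by
  refine continuous_matrix fun i j => ?_
  fin_cases i <;> fin_cases j
  · show Continuous fun α : ℝ => Complex.exp (Complex.I * ((α / 2 : ℝ) : ℂ))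
    fun_prop
  · exact continuous_const
  · exact continuous_const
  · show Continuous fun α : ℝ => Complex.exp (-(Complex.I * ((α / 2 : ℝ) : ℂ)))
    fun_prop

theorem continuous_rotY409s : Continuous rotY := by
  refine continuous_matrix fun i j => ?_
  fin_cases i <;> fin_cases j
  · show Continuous fun β : ℝ => ((Real.cos (β / 2) : ℝ) : ℂ)
    fun_prop
  · show Continuous fun β : ℝ => -((Real.sin (β / 2) : ℝ) : ℂ)
    fun_prop
  · show Continuous fun β : ℝ => ((Real.sin (β / 2) : ℝ) : ℂ)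
    fun_prop
  · show Continuous fun β : ℝ => ((Real.cos (β / 2) : ℝ) : ℂ)
    fun_prop

theorem det_rotZ409s (γ : ℝ) : (rotZ γ).det = 1 := by
  show Matrix.det !![Complex.exp (Complex.I * ((γ / 2 : ℝ) : ℂ)), 0;
     0, Complex.exp (-(Complex.I * ((γ / 2 : ℝ) : ℂ)))] = 1
  rw [Matrix.det_fin_two_of, mul_zero, sub_zero, ← Complex.exp_add, add_neg_cancel,
    Complex.exp_zero]

theorem det_rotY409s (β : ℝ) : (rotY β).det = 1 := by
  show Matrix.det !![((Real.cos (β / 2) : ℝ) : ℂ), -((Real.sin (β / 2) : ℝ) : ℂ);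
     ((Real.sin (β / 2) : ℝ) : ℂ), ((Real.cos (β / 2) : ℝ) : ℂ)] = 1
  rw [Matrix.det_fin_two_of]
  have h := Real.cos_sq_add_sin_sq (β / 2)
  have h' : ((Real.cos (β / 2) : ℝ) : ℂ) ^ 2 + ((Real.sin (β / 2) : ℝ) : ℂ) ^ 2 = 1 := by
    exact_mod_cast h
  linear_combination h'

theorem det_torus409s (d : ℝ) : (torus d).det = 1 := by
  show Matrix.det !![((Real.exp (d / 2) : ℝ) : ℂ), 0;
     0, ((Real.exp (-(d / 2)) : ℝ) : ℂ)] = 1
  rw [Matrix.det_fin_two_of, mul_zero, sub_zero, ← Complex.ofReal_mul, ← Real.exp_add,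
    add_neg_cancel, Real.exp_zero, Complex.ofReal_one]

/-- The parametrisation of a sphere is jointly continuous. -/
theorem continuous_sphereFam409s (w : InfinitePlace K) (d : ℝ) (Y : ℝ → ℝ → G K)
    (hY : ∀ α β : ℝ, IsLocalAtInf w (Y α β) ∧ infComp w (Y α β) = rotZ α * rotY β * torus d) :
    Continuous fun p : ℝ × ℝ => Y p.1 p.2 := by
  refine A2.H751.continuous_of_local751 w (fun p : ℝ × ℝ => Y p.1 p.2)
    (fun p => (hY p.1 p.2).1) ?_ ?_
  · have h : (fun p : ℝ × ℝ => infComp w (Y p.1 p.2))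
        = fun p : ℝ × ℝ => rotZ p.1 * rotY p.2 * torus d := funext fun p => (hY p.1 p.2).2
    rw [h]
    exact ((continuous_rotZ409s.comp continuous_fst).matrix_mul
      (continuous_rotY409s.comp continuous_snd)).matrix_mul continuous_const
  · intro p
    rw [(hY p.1 p.2).2, Matrix.det_mul, Matrix.det_mul, det_rotZ409s, det_rotY409s,
      det_torus409s, mul_one, mul_one]

/-- The sum of the right translates by elements trivial at infinity preserves the
eigenfunctions of the sphere means. -/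
theorem meanEig_cosetOp409s {ψ : G K → ℂ} (hc : Continuous ψ) {w : InfinitePlace K}
    {m : ℝ → ℂ} (hm : MeanEig ψ w m) (Hg : Finset (G K))
    (hHg : ∀ h ∈ Hg, ∀ w' : InfinitePlace K, TrivAtInf w' h) :
    MeanEig (cosetOp Hg ψ) w m := by
  intro d hd Y hY x
  have hYc := continuous_sphereFam409s w d Y hY
  have e : ∀ α β : ℝ, cosetOp Hg ψ (x * Y α β) * ((Real.sin β : ℝ) : ℂ)
      = ∑ h ∈ Hg, ψ (x * h * Y α β) * ((Real.sin β : ℝ) : ℂ) := by
    intro α β
    show (∑ h ∈ Hg, ψ (x * Y α β * h)) * ((Real.sin β : ℝ) : ℂ) = _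
    rw [Finset.sum_mul]
    refine Finset.sum_congr rfl fun h hh => ?_
    rw [mul_assoc x, comm_fin_inf409s (fun v => (hY α β).1.2 v) (hHg h hh), ← mul_assoc]
  have hcont : ∀ h : G K, Continuous fun p : ℝ × ℝ =>
      ψ (x * h * Y p.1 p.2) * ((Real.sin p.2 : ℝ) : ℂ) := by
    intro h
    exact (hc.comp (continuous_const.mul hYc)).mul
      (Complex.continuous_ofReal.comp (Real.continuous_sin.comp continuous_snd))
  have hin : ∀ α : ℝ, (∫ β in (0 : ℝ)..Real.pi, cosetOp Hg ψ (x * Y α β) * ((Real.sin β : ℝ) : ℂ))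
      = ∑ h ∈ Hg, ∫ β in (0 : ℝ)..Real.pi, ψ (x * h * Y α β) * ((Real.sin β : ℝ) : ℂ) := by
    intro α
    have e1 : (fun β : ℝ => cosetOp Hg ψ (x * Y α β) * ((Real.sin β : ℝ) : ℂ))
        = fun β : ℝ => ∑ h ∈ Hg, ψ (x * h * Y α β) * ((Real.sin β : ℝ) : ℂ) :=
      funext fun β => e α β
    rw [e1]
    refine intervalIntegral.integral_finsetSum fun h _ => ?_
    have hg1 : Continuous fun β : ℝ => ((α, β) : ℝ × ℝ) := Continuous.prodMk_right α
    have h2 := (hcont h).comp hg1
    exact h2.intervalIntegrable 0 Real.pi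
  have hterm : ∀ h ∈ Hg, IntervalIntegrable (fun α : ℝ => ∫ β in (0 : ℝ)..Real.pi,
      ψ (x * h * Y α β) * ((Real.sin β : ℝ) : ℂ)) volume 0 (2 * Real.pi) := by
    intro h _
    have h3 : Continuous fun α : ℝ => ∫ β in (0 : ℝ)..Real.pi,
        ψ (x * h * Y α β) * ((Real.sin β : ℝ) : ℂ) :=
      intervalIntegral.continuous_parametric_intervalIntegral_of_continuous'
        (f := fun (α : ℝ) (β : ℝ) => ψ (x * h * Y α β) * ((Real.sin β : ℝ) : ℂ)) (hcont h) 0
        Real.pi
    exact h3.intervalIntegrable _ _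
  calc (∫ α in (0 : ℝ)..(2 * Real.pi), ∫ β in (0 : ℝ)..Real.pi,
          cosetOp Hg ψ (x * Y α β) * ((Real.sin β : ℝ) : ℂ))
      = ∫ α in (0 : ℝ)..(2 * Real.pi), ∑ h ∈ Hg, ∫ β in (0 : ℝ)..Real.pi,
          ψ (x * h * Y α β) * ((Real.sin β : ℝ) : ℂ) :=
        intervalIntegral.integral_congr fun α _ => hin α
    _ = ∑ h ∈ Hg, ∫ α in (0 : ℝ)..(2 * Real.pi), ∫ β in (0 : ℝ)..Real.pi,
          ψ (x * h * Y α β) * ((Real.sin β : ℝ) : ℂ) :=
        intervalIntegral.integral_finsetSum hterm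
    _ = ∑ h ∈ Hg, m d * ψ (x * h) :=
        Finset.sum_congr rfl fun h _ => hm d hd Y hY (x * h)
    _ = m d * cosetOp Hg ψ x := (Finset.mul_sum _ _ _).symm

/-! ## 6. Cuspidality -/

/-- The constant term of a finite sum of right translates vanishes. -/
theorem cuspidal_cosetOp409s (Hg : Finset (G K)) {ψ : G K → ℂ} (hc : Continuous ψ)
    (hb : ∃ C : ℝ, ∀ g : G K, ‖ψ g‖ ≤ C) (hψ : IsCuspidalFn ψ) :
    IsCuspidalFn (cosetOp Hg ψ) := by
  let _ : MeasurableSpace (Adl K) := borel (Adl K)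
  intro μ hμ D hD n hn g
  have e : (fun x => cosetOp Hg ψ (n x * g)) = fun x => ∑ h ∈ Hg, ψ (n x * (g * h)) := by
    funext x
    show ∑ h ∈ Hg, ψ (n x * g * h) = _
    simp only [mul_assoc]
  rw [e, integral_finsetSum]
  · exact Finset.sum_eq_zero fun h _ => hψ μ hμ D hD n hn (g * h)
  · intro h _
    exact T2.H566.integrable_unip566 (T1.H886.addFundDomC886 K) hc hb μ hμ D hD n hn (g * h)

/-! ## 7. The theorem -/

theorem cosetOp_apply409s (Hg : Finset (G K)) (ψ : G K → ℂ) (x : G K) :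
    cosetOp Hg ψ x = ∑ h ∈ Hg, ψ (x * h) := rfl

/-- A scalar uniformiser is central. -/
theorem central_scalarUnif409s {v : HeightOneSpectrum (𝓞 K)} {z : G K}
    (hz : IsScalarUniformizerAt v z) (h : G K) : h * z = z * h := by
  obtain ⟨hloc, c, -, hc⟩ := hz
  rw [isLocalAtFin_iff129] at hloc
  refine T2.H429.central_of_scalar_comp429 (fun w => ⟨1, ?_⟩) (fun v' => ?_) h
  · rw [hloc.1 w]
    exact T2.H429.one_eq_diagonal429
  · by_cases hv' : v' = v
    · subst hv'
      exact ⟨c, by rw [coe_finCompHom129]; exact hc⟩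
    · refine ⟨1, ?_⟩
      rw [hloc.2 v' hv']
      exact T2.H429.one_eq_diagonal429

/-- **The double coset operator of an element supported at the bad places preserves the
invariant eigenfunctions.** -/
theorem cosetOp_isEigFn409 (𝔫 : Ideal (𝓞 K)) (r : G K) (l : ℕ)
    (o : ℕ → HeightOneSpectrum (𝓞 K)) (C : EigData K) (hr : T5.IsRayGen r)
    (g : G K) (Hg : Finset (G K))
    (hgI : ∀ w : InfinitePlace K, TrivAtInf w g)
    (hgF : ∀ v : HeightOneSpectrum (𝓞 K), ¬ v.asIdeal ∣ 𝔫 → TrivAtFin v g)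
    (hgO : ∀ j < l, TrivAtFin (o j) g)
    (hH : IsDblCosetSystem 𝔫 g Hg) (ψ : G K → ℂ) (hψ : IsEigFn 𝔫 r l o ψ C) :
    IsEigFn 𝔫 r l o (cosetOp Hg ψ) C := by
  obtain ⟨-, hIwInv, hmul, hinv, -, -, hnorm⟩ := H543.hGroupC543 K 𝔫 l o
  have hHI : ∀ h ∈ Hg, ∀ w : InfinitePlace K, TrivAtInf w h :=
    fun h hh w => mem_trivAtInf409s hgI hH hh w
  have hcusp := hψ.inv.cusp
  have hU := hcusp.aut.level_inv
  -- invariance under the level group
  have hlev : ∀ u : G K, InLevelGroup 𝔫 u → ∀ x : G K,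
      cosetOp Hg ψ (x * u) = cosetOp Hg ψ x := by
    intro u hu x
    refine perm_sum409s hmul hinv hH u 1 (fun u' hu' => ?_) (fun h hh => ?_) ψ hU
      (fun y => by rw [mul_one]) x
    · rw [inv_one, one_mul, mul_one]
      exact hu'
    · obtain ⟨u₁, u₂, hu₁, hu₂, e⟩ := hH.1 h hh
      refine ⟨u * u₁, u₂, hmul _ _ hu hu₁, hu₂, ?_⟩
      rw [e]
      group
  -- invariance under the Iwahori elements of the orbit
  have hiw : IsIwInv l o (cosetOp Hg ψ) := by
    rw [H193.isIwInv_iff]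
    intro k hk x
    have hkinv : H193.IsIwElt l o k⁻¹ := hIwInv k hk
    have hkg : k * g = g * k := by
      refine T2.H429.commute_of_disjoint429
        (fun w => Or.inl ((trivAtInf_iff129 w k).1 (hk.1 w))) (fun v => ?_)
      by_cases hv : ∀ j < l, v ≠ o j
      · exact Or.inl ((trivAtFin_iff129 v k).1 (hk.2.1 v hv))
      · push Not at hv
        obtain ⟨j, hj, rfl⟩ := hv
        exact Or.inr ((trivAtFin_iff129 _ g).1 (hgO j hj))
    refine perm_sum409s hmul hinv hH k k (fun u hu => hnorm k u hk hu) (fun h hh => ?_) ψ hU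
      (fun y => (H193.isIwInv_iff.1 hψ.inv.iw) k hk y) x
    obtain ⟨u₁, u₂, hu₁, hu₂, e⟩ := hH.1 h hh
    refine ⟨k * u₁ * k⁻¹, k * u₂ * k⁻¹, ?_, ?_, ?_⟩
    · have := hnorm k⁻¹ u₁ hkinv hu₁
      rwa [inv_inv] at this
    · have := hnorm k⁻¹ u₂ hkinv hu₂
      rwa [inv_inv] at this
    · have hg' : k⁻¹ * g * k = g := by
        rw [mul_assoc, ← hkg, ← mul_assoc, inv_mul_cancel, one_mul]
      have e2 : k * u₁ * k⁻¹ * g * (k * u₂ * k⁻¹) = k * u₁ * (k⁻¹ * g * k) * u₂ * k⁻¹ := by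
        group
      rw [e2, hg', e]
      group
  refine ⟨⟨⟨?_, ?_, ⟨?_, hlev, ?_, ?_⟩,
    cuspidal_cosetOp409s Hg hcusp.cont hcusp.bdd hcusp.cuspidal⟩, ?_, hiw⟩, ?_, ?_⟩
  · -- continuity
    show Continuous fun x => ∑ h ∈ Hg, ψ (x * h)
    exact continuous_finsetSum _ fun h _ => hcusp.cont.comp (continuous_id.mul continuous_const)
  · -- boundedness
    obtain ⟨B, hB⟩ := hcusp.bdd
    refine ⟨∑ _h ∈ Hg, B, fun x => ?_⟩
    rw [cosetOp_apply409s]
    exact (norm_sum_le _ _).trans (Finset.sum_le_sum fun h _ => hB _)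
  · -- left invariance under `GL₂(K)`
    intro γ x
    rw [cosetOp_apply409s, cosetOp_apply409s]
    refine Finset.sum_congr rfl fun h _ => ?_
    rw [mul_assoc]
    exact hcusp.aut.left_inv γ (x * h)
  · -- the `K_∞`-type
    intro w k hk x
    rw [cosetOp_apply409s, cosetOp_apply409s]
    have htriv : T5.trivType k = 1 := rfl
    rw [htriv, one_mul]
    refine Finset.sum_congr rfl fun h hh => ?_
    rw [mul_assoc, comm_fin_inf409s (fun v => hk.1.2 v) (hHI h hh), ← mul_assoc,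
      hcusp.aut.arch_compact w k hk (x * h), htriv, one_mul]
  · -- the ray
    intro x
    rw [cosetOp_apply409s, cosetOp_apply409s]
    refine Finset.sum_congr rfl fun h hh => ?_
    rw [mul_assoc, comm_fin_inf409s hr.1 (hHI h hh), ← mul_assoc]
    exact hcusp.aut.ray (x * h)
  · -- the positive scalars at infinity
    intro w z hz x
    rw [cosetOp_apply409s, cosetOp_apply409s]
    refine Finset.sum_congr rfl fun h hh => ?_
    rw [mul_assoc, comm_fin_inf409s (fun v => hz.1.2 v) (hHI h hh), ← mul_assoc]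
    exact hψ.inv.arch_scalar w z hz (x * h)
  · -- the Hecke operators at the places prime to the level
    intro v hv
    obtain ⟨hT, hS⟩ := hψ.hecke v hv
    constructor
    · intro H' hH' x
      have hloc : ∀ h ∈ Hg, ∃ t : G K, TrivAtFin v t ∧ ∀ y : G K, ψ (y * h) = ψ (y * t) := by
        intro h hh
        obtain ⟨t, u, ht, hu, e⟩ := exists_locPart409s hH hv (hgF v hv) hh
        exact ⟨t, ht, fun y => by rw [e, ← mul_assoc, hU u hu]⟩
      choose! t ht hψt using hloc
      have e1 : ∀ h' ∈ H', cosetOp Hg ψ (x * h') = ∑ h ∈ Hg, ψ (x * t h * h') := by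
        intro h' hh'
        rw [cosetOp_apply409s]
        refine Finset.sum_congr rfl fun h hh => ?_
        have hcomm : h' * t h = t h * h' := by
          have hl := (isLocalAtFin_iff129 v h').1 (hH'.2.1 h' hh').1
          refine T2.H429.commute_of_disjoint429 (fun w => Or.inl (hl.1 w)) (fun v' => ?_)
          by_cases hv' : v' = v
          · subst hv'
            exact Or.inr ((trivAtFin_iff129 _ _).1 (ht h hh))
          · exact Or.inl (hl.2 v' hv')
        rw [hψt h hh, mul_assoc, hcomm, ← mul_assoc]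
      rw [Finset.sum_congr rfl e1, Finset.sum_comm, cosetOp_apply409s, Finset.mul_sum]
      refine Finset.sum_congr rfl fun h hh => ?_
      rw [hT H' hH' (x * t h), ← hψt h hh]
    · intro z hz x
      rw [cosetOp_apply409s, cosetOp_apply409s, Finset.mul_sum]
      refine Finset.sum_congr rfl fun h _ => ?_
      rw [mul_assoc, ← central_scalarUnif409s hz h, ← mul_assoc]
      exact hS z hz (x * h)
  · -- the sphere means
    intro w
    exact meanEig_cosetOp409s hcusp.cont (hψ.mean w) Hg hHI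

end Fermat.Agent.LT.T7.H409

end
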