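import Fermat.Agent.LT.T7.H616.ClassModelSpec
import Fermat.Agent.LT.T7.H409.StabGCore

/-!
# Row LT, tower T7, leaf T7.L2.2.N.1.03 `StabGC616` (registry 2398; helper409, OFF-MAIN)

`stabGC409 K K' : Fermat.Agent.LT.T7.CM616.StabGC616 K K'`, VERBATIM against
`LT/T7/H616/ClassModelSpec.lean` (helper616@6a81e5a09, sha256 8568bae7), UNCONDITIONAL.
= `cosetOp_isEigFn409` (`StabGCore.lean`): a bad element is trivial at infinity, at the places
outside `S'` (= the places prime to `𝔑₀`, `IsL2Data.mem_S'`) and along the orbit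
(`IsL2Data.deg`); the ray generator of the frame is a ray generator (`IsCompData.frame'`).
-/

set_option autoImplicit false

open IsDedekindDomain NumberField

noncomputable section

namespace Fermat.Agent.LT.T7.H409

open Fermat.Agent.LT.H556 Fermat.Agent.LT.H556.A0 Fermat.Agent.LT Fermat.Agent.LT.T7

/-- **LEAF CM.03 = STAB-G.** -/
theorem stabGC409 (K K' : Type) [Field K] [NumberField K] [Field K'] [NumberField K']
    [Algebra K K'] : CM616.StabGC616 K K' := by
  intro ℓ Φ Dt hctx g Hg hbad hH ψ hψ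
  have hd := hctx.data
  refine cosetOp_isEigFn409 Dt.𝔑₀ Dt.R'.r ℓ Dt.o (eigOf Φ) ((hd.comp g hbad).frame').ray g Hg
    hbad.1 (fun v hv => hbad.2 v (Or.inl ?_)) (fun j hj => hbad.2 _ (Or.inr ⟨j, ?_, rfl⟩))
    hH ψ hψ
  · intro hmem
    exact hv ((hd.mem_S' v).1 hmem)
  · rw [hd.deg]
    exact hj

end Fermat.Agent.LT.T7.H409

end
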