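import Fermat.Agent.LT.T7.P51.ProdMtSpec
import Fermat.Agent.LT.T7.H468.IwPerm
import Fermat.Agent.LT.T6.H125.Cut
import Fermat.Agent.LT.T6.H176.InstLocal
import Fermat.Agent.LT.T2.H557.CutLevel

/-!
# Row LT, tower T7, leaf T7.L2.1.H2b.L1 `P51.RegOrbC51` (helper409): PROVED

OFF-MAIN.  No hole, nothing assumed.

    regOrbC409 (K K') : P51.RegOrbC51 K K'

Bi-invariance and finite support of the components of the products at the place `u` and along
the orbit: `regLoc51 w z H k j 1_I` (and `1_I`) is bi-invariant under `U(n)`, `n ≥ 1`, with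
finite support modulo `U(n)`.

* `IsIwReg409 w n φ`: `φ` is left and right invariant under the Iwahori subgroup `I` of
  `GL₂(K_w)` and has finite support modulo `U(n)`.  The Iwahori function `1_I` is regular
  (`I ⊆ U(0)` is one coset of `U(0)`; `T6.H125.finSuppLvlC125` (helper125) with
  `T6.H176.instLocalC176` (helper176) gives finite support modulo `U(n)`).
* The local Iwahori operator `iwLoc51 w H` preserves the regular functions: an Iwahori coset
  system is COMPLETE (local form of `H468.iw_complete468`, helper468: the invariant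
  `M₀₁ / M₁₁ mod 𝔭`, pigeonhole), so left multiplication by `i ∈ I` permutes the classes
  `h_w I` (`iw_sum_left409`).
* The component of a scalar uniformiser is central: left translation by `z_w ^ k` preserves the
  regular functions.
* `U(n) ⊆ I` for `n ≥ 1`, and the exponents of `𝔫`, `𝔫 𝒪_{K'}` at the places dividing them
  are `≥ 1` (`T2.H557.idealClosure_ball557`, helper557).
-/

set_option autoImplicit false
set_option linter.unusedSectionVars false
set_option linter.style.haveILetI false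

open AutomorphicForm IsDedekindDomain NumberField MeasureTheory
open scoped ComplexConjugate

noncomputable section

namespace Fermat.Agent.LT.T7.H409

open Fermat.Agent.LT.H556 Fermat.Agent.LT.H556.A0 Fermat.Agent.LT.T7
open Fermat.Agent.LT.T7.H305 Fermat.Agent.LT.T7.H893 Fermat.Agent.LT.T7.P51
open Fermat.Agent.LT.T7.H468

section Local

variable {F : Type} [Field F] [NumberField F] {w : HeightOneSpectrum (𝓞 F)}

/-- The two local Iwahori predicates agree. -/
theorem inIw893_iff409 (x : GL (Fin 2) (w.adicCompletion F)) :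
    InIw893 x ↔ IwL468 w x := Iff.rfl

/-- The two component maps agree. -/
theorem finGL305_eq409 (g : G F) :
    finGL305 w g = Fermat.Agent.LT.T8.H864.finCompHom w g := rfl

/-- `U(n) ⊆ I` for `n ≥ 1`. -/
theorem iwL_of_inU409 {n : ℕ} (hn : 1 ≤ n) {x : GL (Fin 2) (w.adicCompletion F)}
    (hx : T6.InU n x) : IwL468 w x := by
  refine ⟨fun i j => Fermat.Agent.LT.T6.H125.inU_entry125 hx i j,
    fun i j => Fermat.Agent.LT.T6.H125.inU_inv_entry125 hx i j, ?_⟩
  have h1 := (hx 1 0).1
  rw [Matrix.one_apply_ne (by decide), sub_zero] at h1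
  refine lt_of_le_of_lt h1 ?_
  rw [← WithZero.exp_zero, WithZero.exp_lt_exp]
  omega

/-- `I ⊆ U(0)`. -/
theorem inU_zero_of_iwL409 {x : GL (Fin 2) (w.adicCompletion F)} (hx : IwL468 w x) :
    T6.InU 0 x := by
  intro i j
  have h1 : Valued.v ((1 : Matrix (Fin 2) (Fin 2) (w.adicCompletion F)) i j) ≤ 1 :=
    Fermat.Agent.LT.T6.H125.v_one_entry125 i j
  refine ⟨?_, ?_⟩
  · have := Fermat.Agent.LT.T6.H125.v_sub_le125 (hx.1 i j) h1
    simpa using this
  · have := Fermat.Agent.LT.T6.H125.v_sub_le125 (hx.2.1 i j) h1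
    simpa using this


/-- `φ` is left and right invariant under the Iwahori subgroup and has finite support modulo
`U(n)`. -/
def IsIwReg409 (w : HeightOneSpectrum (𝓞 F)) (n : ℕ)
    (φ : GL (Fin 2) (w.adicCompletion F) → ℂ) : Prop :=
  (∀ i y : GL (Fin 2) (w.adicCompletion F), IwL468 w i → φ (i * y) = φ y) ∧
    (∀ i y : GL (Fin 2) (w.adicCompletion F), IwL468 w i → φ (y * i) = φ y) ∧
    T6.HasFinSupp (T6.InU n) φ

/-- Bi-invariance under `U(n)`, `n ≥ 1`. -/
theorem isBiInv_of_isIwReg409 {n : ℕ} (hn : 1 ≤ n)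
    {φ : GL (Fin 2) (w.adicCompletion F) → ℂ} (h : IsIwReg409 w n φ) :
    T6.IsBiInv (T6.InU n) φ := by
  intro u u' g hu hu'
  rw [h.2.1 u' (u * g) (iwL_of_inU409 hn hu'), h.1 u g (iwL_of_inU409 hn hu)]

/-- The Iwahori function. -/
theorem isIwReg_iwFn409 (n : ℕ) :
    IsIwReg409 w n (iwFn893 : GL (Fin 2) (w.adicCompletion F) → ℂ) := by
  classical
  have hiff : ∀ i y : GL (Fin 2) (w.adicCompletion F), IwL468 w i →
      (IwL468 w (i * y) ↔ IwL468 w y) := by
    intro i y hi
    constructor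
    · intro h
      have := hi.inv.mul h
      rwa [inv_mul_cancel_left] at this
    · intro h
      exact hi.mul h
  have hiff' : ∀ i y : GL (Fin 2) (w.adicCompletion F), IwL468 w i →
      (IwL468 w (y * i) ↔ IwL468 w y) := by
    intro i y hi
    constructor
    · intro h
      have := h.mul hi.inv
      rwa [mul_inv_cancel_right] at this
    · intro h
      exact h.mul hi
  refine ⟨fun i y hi => ?_, fun i y hi => ?_, ?_⟩
  · show (if InIw893 (i * y) then (1 : ℂ) else 0) = if InIw893 y then (1 : ℂ) else 0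
    exact if_congr (hiff i y hi) rfl rfl
  · show (if InIw893 (y * i) then (1 : ℂ) else 0) = if InIw893 y then (1 : ℂ) else 0
    exact if_congr (hiff' i y hi) rfl rfl
  · have h0 : T6.HasFinSupp (T6.InU 0)
        (iwFn893 : GL (Fin 2) (w.adicCompletion F) → ℂ) := by
      refine ⟨{1}, fun g hg => ?_⟩
      have hgI : InIw893 g := by
        by_contra hcon
        apply hg
        show (if InIw893 g then (1 : ℂ) else 0) = 0
        exact if_neg hcon
      exact ⟨1, Finset.mem_singleton_self 1, g, inU_zero_of_iwL409 hgI, (one_mul g).symm⟩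
    exact Fermat.Agent.LT.T6.H125.finSuppLvlC125 (w.adicCompletion F)
      (Ideal.absNorm w.asIdeal) (Fermat.Agent.LT.T6.H176.instLocalC176 F w) 0 n _
      (Nat.zero_le n) h0

/-- Left translation by a central element. -/
theorem isIwReg_ltr409 {n : ℕ} {φ : GL (Fin 2) (w.adicCompletion F) → ℂ}
    (h : IsIwReg409 w n φ) (c : GL (Fin 2) (w.adicCompletion F))
    (hc : ∀ y : GL (Fin 2) (w.adicCompletion F), c * y = y * c) :
    IsIwReg409 w n (fun y => φ (c⁻¹ * y)) := by
  classical
  have hc' : ∀ y : GL (Fin 2) (w.adicCompletion F), c⁻¹ * y = y * c⁻¹ := by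
    intro y
    have hcy : Commute c y := hc y
    exact hcy.inv_left.eq
  refine ⟨fun i y hi => ?_, fun i y hi => ?_, ?_⟩
  · show φ (c⁻¹ * (i * y)) = φ (c⁻¹ * y)
    rw [← mul_assoc, hc' i, mul_assoc]
    exact h.1 i _ hi
  · show φ (c⁻¹ * (y * i)) = φ (c⁻¹ * y)
    rw [← mul_assoc]
    exact h.2.1 i _ hi
  · obtain ⟨S, hS⟩ := h.2.2
    refine ⟨S.image (fun x => c * x), fun g hg => ?_⟩
    obtain ⟨x, hx, u, hu, e⟩ := hS (c⁻¹ * g) hg
    refine ⟨c * x, Finset.mem_image_of_mem _ hx, u, hu, ?_⟩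
    rw [mul_assoc, ← e, mul_inv_cancel_left]

/-- Scalar multiples. -/
theorem isIwReg_smul409 {n : ℕ} {φ : GL (Fin 2) (w.adicCompletion F) → ℂ}
    (h : IsIwReg409 w n φ) (t : ℂ) : IsIwReg409 w n (fun y => t * φ y) := by
  refine ⟨fun i y hi => ?_, fun i y hi => ?_, ?_⟩
  · show t * φ (i * y) = t * φ y
    rw [h.1 i y hi]
  · show t * φ (y * i) = t * φ y
    rw [h.2.1 i y hi]
  · obtain ⟨S, hS⟩ := h.2.2
    exact ⟨S, fun g hg => hS g (fun h0 => hg (by show t * φ g = 0; rw [h0, mul_zero]))⟩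


/-- The components of the members of an Iwahori coset system have the standard shape. -/
theorem stdL_of_sys409 {H : Finset (G F)} (hH : IsIwCosetSystem w H) {h : G F} (hh : h ∈ H) :
    StdL468 w (finGL305 w h) :=
  stdL_of_coset468 (hH.2.1 h hh).2

/-- **Completeness, local form**: every element of the standard shape lies in `h_w I` for a
member `h` of the system. -/
theorem iw_complete_loc409 {H : Finset (G F)} (hH : IsIwCosetSystem w H)
    {M : GL (Fin 2) (w.adicCompletion F)} (hM : StdL468 w M) :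
    ∃ h ∈ H, IwL468 w ((finGL305 w h)⁻¹ * M) := by
  classical
  obtain ⟨hcard, hmem, hne⟩ := hH
  haveI : Finite (IsLocalRing.ResidueField (w.adicCompletionIntegers F)) :=
    Fermat.Agent.LT.H129.finite_residueField129 F w
  letI : Fintype (IsLocalRing.ResidueField (w.adicCompletionIntegers F)) := Fintype.ofFinite _
  have hstd : ∀ h ∈ H, StdL468 w (finGL305 w h) := fun h hh => stdL_of_coset468 (hmem h hh).2
  have key : ∀ a b : GL (Fin 2) (w.adicCompletion F), StdL468 w a → StdL468 w b →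
      lamL468 w a = lamL468 w b → IwL468 w (a⁻¹ * b) := fun a b ha hb hab =>
    iwL_inv_mul468 ha hb (val_of_lamL_eq468 ha hb hab)
  let ι : {h // h ∈ H} → IsLocalRing.ResidueField (w.adicCompletionIntegers F) :=
    fun h => lamL468 w (finGL305 w h.1)
  have hinj : Function.Injective ι := by
    intro h h' e
    by_contra hcon
    have hne' : h.1 ≠ h'.1 := fun hh => hcon (Subtype.ext hh)
    refine hne h.1 h.2 h'.1 h'.2 hne' ?_
    rw [inIwahori_iff468, map_mul, map_inv]
    exact key _ _ (hstd h.1 h.2) (hstd h'.1 h'.2) e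
  have hcard' : Fintype.card {h // h ∈ H}
      = Fintype.card (IsLocalRing.ResidueField (w.adicCompletionIntegers F)) := by
    rw [Fintype.card_coe, hcard, ← Nat.card_eq_fintype_card,
      Fermat.Agent.LT.H129.card_residueField129 F w]
  have hbij : Function.Bijective ι :=
    (Fintype.bijective_iff_injective_and_card ι).mpr ⟨hinj, hcard'⟩
  obtain ⟨⟨h, hhH⟩, hh⟩ := hbij.2 (lamL468 w M)
  exact ⟨h, hhH, key _ _ (hstd h hhH) hM hh⟩

/-- **The Iwahori subgroup permutes the system**: for `i ∈ I` the sum over the system of the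
translates of a left `I`-invariant function is left `I`-invariant. -/
theorem iw_sum_left409 {H : Finset (G F)} (hH : IsIwCosetSystem w H)
    {φ : GL (Fin 2) (w.adicCompletion F) → ℂ}
    (hφ : ∀ i y : GL (Fin 2) (w.adicCompletion F), IwL468 w i → φ (i * y) = φ y)
    {i : GL (Fin 2) (w.adicCompletion F)} (hi : IwL468 w i)
    (y : GL (Fin 2) (w.adicCompletion F)) :
    ∑ h ∈ H, φ ((finGL305 w h)⁻¹ * (i * y)) = ∑ h ∈ H, φ ((finGL305 w h)⁻¹ * y) := by
  classical
  have hex : ∀ h : G F, ∃ h' : G F, h ∈ H →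
      h' ∈ H ∧ IwL468 w ((finGL305 w h')⁻¹ * (i⁻¹ * finGL305 w h)) := by
    intro h
    by_cases hh : h ∈ H
    · obtain ⟨h', hh', hI⟩ := iw_complete_loc409 hH
        (StdL468.iw_mul hi.inv (stdL_of_sys409 hH hh))
      exact ⟨h', fun _ => ⟨hh', hI⟩⟩
    · exact ⟨h, fun h0 => absurd h0 hh⟩
  choose σ hσ using hex
  have hval : ∀ h ∈ H, φ ((finGL305 w h)⁻¹ * (i * y)) = φ ((finGL305 w (σ h))⁻¹ * y) := by
    intro h hh
    have hI := (hσ h hh).2
    have e : (finGL305 w h)⁻¹ * (i * y)
        = ((finGL305 w (σ h))⁻¹ * (i⁻¹ * finGL305 w h))⁻¹ * ((finGL305 w (σ h))⁻¹ * y) := by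
      group
    rw [e]
    exact hφ _ _ hI.inv
  have hinj : Set.InjOn σ (H : Set (G F)) := by
    intro a ha b hb hab
    by_contra hcon
    have h1 := (hσ a ha).2
    have h2 := (hσ b hb).2
    rw [← hab] at h2
    have h3 : IwL468 w ((finGL305 w a)⁻¹ * finGL305 w b) := by
      have := h1.inv.mul h2
      have e : ((finGL305 w (σ a))⁻¹ * (i⁻¹ * finGL305 w a))⁻¹
          * ((finGL305 w (σ a))⁻¹ * (i⁻¹ * finGL305 w b))
          = (finGL305 w a)⁻¹ * finGL305 w b := by group
      rwa [e] at this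
    refine hH.2.2 a ha b hb hcon ?_
    rw [inIwahori_iff468, map_mul, map_inv]
    exact h3
  have himg : H.image σ = H := by
    refine Finset.eq_of_subset_of_card_le ?_ ?_
    · intro x hx
      obtain ⟨h, hh, rfl⟩ := Finset.mem_image.mp hx
      exact (hσ h hh).1
    · rw [Finset.card_image_of_injOn hinj]
  calc ∑ h ∈ H, φ ((finGL305 w h)⁻¹ * (i * y))
      = ∑ h ∈ H, φ ((finGL305 w (σ h))⁻¹ * y) := Finset.sum_congr rfl hval
    _ = ∑ h' ∈ H.image σ, φ ((finGL305 w h')⁻¹ * y) :=
        (Finset.sum_image (f := fun h' => φ ((finGL305 w h')⁻¹ * y)) hinj).symm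
    _ = ∑ h ∈ H, φ ((finGL305 w h)⁻¹ * y) := by rw [himg]

/-- The local Iwahori operator preserves the regular functions. -/
theorem isIwReg_iwLoc409 {n : ℕ} {H : Finset (G F)} (hH : IsIwCosetSystem w H)
    {φ : GL (Fin 2) (w.adicCompletion F) → ℂ} (h : IsIwReg409 w n φ) :
    IsIwReg409 w n (iwLoc51 w H φ) := by
  classical
  refine ⟨fun i y hi => ?_, fun i y hi => ?_, ?_⟩
  · show _ * ∑ h' ∈ H, φ ((finGL305 w h')⁻¹ * (i * y))
      = _ * ∑ h' ∈ H, φ ((finGL305 w h')⁻¹ * y)
    rw [iw_sum_left409 hH h.1 hi y]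
  · show _ * ∑ h' ∈ H, φ ((finGL305 w h')⁻¹ * (y * i))
      = _ * ∑ h' ∈ H, φ ((finGL305 w h')⁻¹ * y)
    congr 1
    refine Finset.sum_congr rfl fun h' _ => ?_
    rw [← mul_assoc]
    exact h.2.1 i _ hi
  · obtain ⟨S, hS⟩ := h.2.2
    refine ⟨(H ×ˢ S).image (fun p => finGL305 w p.1 * p.2), fun g hg => ?_⟩
    have hne : ∑ h' ∈ H, φ ((finGL305 w h')⁻¹ * g) ≠ 0 := by
      intro h0
      apply hg
      show _ * ∑ h' ∈ H, φ ((finGL305 w h')⁻¹ * g) = 0
      rw [h0, mul_zero]
    obtain ⟨h', hh', hne'⟩ := Finset.exists_ne_zero_of_sum_ne_zero hne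
    obtain ⟨x, hx, u, hu, e⟩ := hS _ hne'
    refine ⟨finGL305 w h' * x, Finset.mem_image.mpr ⟨(h', x), Finset.mem_product.mpr ⟨hh', hx⟩,
      rfl⟩, u, hu, ?_⟩
    rw [mul_assoc, ← e, mul_inv_cancel_left]

theorem isIwReg_iterate409 {n : ℕ} {H : Finset (G F)} (hH : IsIwCosetSystem w H)
    {φ : GL (Fin 2) (w.adicCompletion F) → ℂ} (h : IsIwReg409 w n φ) (j : ℕ) :
    IsIwReg409 w n ((iwLoc51 w H)^[j] φ) := by
  induction j with
  | zero => exact h
  | succ j ih =>
    rw [Function.iterate_succ_apply']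
    exact isIwReg_iwLoc409 hH ih

/-- The component of a scalar uniformiser is central. -/
theorem scalarUnif_central409 {z : G F} (hz : IsScalarUniformizerAt w z)
    (y : GL (Fin 2) (w.adicCompletion F)) : finGL305 w z * y = y * finGL305 w z := by
  obtain ⟨_, c, _, hc⟩ := hz
  have hm : ((finGL305 w z : GL (Fin 2) (w.adicCompletion F)) :
      Matrix (Fin 2) (Fin 2) (w.adicCompletion F)) = Matrix.diagonal (fun _ => c) := hc
  apply Units.ext
  rw [Units.val_mul, Units.val_mul, hm]
  ext a b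
  rw [Matrix.diagonal_mul, Matrix.mul_diagonal, mul_comm]


/-- **The local regularised Iwahori functions are regular.** -/
theorem isIwReg_regLoc409 (n : ℕ) {H : Finset (G F)} (hH : IsIwCosetSystem w H) {z : G F}
    (hz : IsScalarUniformizerAt w z) (k : ℤ) (j : ℕ) :
    IsIwReg409 w n (regLoc51 w z H k j iwFn893) := by
  have hc : ∀ y : GL (Fin 2) (w.adicCompletion F),
      finGL305 w z ^ k * y = y * finGL305 w z ^ k := by
    intro y
    have h1 : Commute (finGL305 w z) y := scalarUnif_central409 hz y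
    exact (h1.zpow_left k).eq
  exact isIwReg_ltr409 (isIwReg_iterate409 hH (isIwReg_iwFn409 n) j) (finGL305 w z ^ k) hc

/-- The exponent of a non-zero ideal at a place dividing it is `≥ 1`. -/
theorem one_le_level409 {𝔞 : Ideal (𝓞 F)} (h𝔞 : 𝔞 ≠ ⊥) {m : HeightOneSpectrum (𝓞 F) → ℕ}
    (hm : IsLevelOf893 𝔞 m) (hw : w.asIdeal ∣ 𝔞) : 1 ≤ m w := by
  obtain ⟨e, he, -, he1, -⟩ := Fermat.Agent.LT.T2.H557.idealClosure_ball557 𝔞 h𝔞 w
  by_contra hcon
  have hm0 : m w = 0 := by omega
  have h1 : (1 : w.adicCompletion F) ∈ idealClosure 𝔞 w := by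
    rw [hm w 1, hm0, map_one]
    simp
  have h2 := (he 1).mp h1
  rw [map_one, ← WithZero.exp_zero, WithZero.exp_le_exp] at h2
  have := he1 hw
  omega

end Local

section Leaf

variable (K K' : Type) [Field K] [NumberField K] [Field K'] [NumberField K'] [Algebra K K']

/-- **LEAF P.L1 = REG-ORB of helper51's cut of `ProdMtCb`: PROVED.** -/
theorem regOrbC409 : Fermat.Agent.LT.T7.P51.RegOrbC51 K K' := by
  intro ℓ Φ B g 𝔫 μc T₀ n n₀ m H' z' H z t k j T φ₀ Φ' f₀ F hloc
  obtain ⟨hctx, hsys, _ht, hprod⟩ := hloc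
  obtain ⟨T₁, T₂, φ₁, Φ₁, f₁, F₁, φ₂, Φ₂, f₂, F₂, -, -, -, -, -, -, hfu, hφ0, hφi, -, -, -⟩ :=
    hprod
  have hup : upI (K' := K') 𝔫 ≠ ⊥ := by
    show Ideal.map (algebraMap (𝓞 K) (𝓞 K')) 𝔫 ≠ ⊥
    intro h0
    exact hsys.level_ne ((Ideal.map_eq_bot_iff_of_injective
      (FaithfulSMul.algebraMap_injective (𝓞 K) (𝓞 K'))).mp h0)
  refine ⟨fun w hw => ?_, ?_⟩
  · -- the places over `u` are the places of the orbit
    obtain ⟨i, hi, rfl⟩ := hctx.base.orbit_all w hw
    have hn1 : 1 ≤ n (B.o i) :=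
      one_le_level409 hup hctx.lev_n ((hsys.mem_S'_g (B.o i)).mp (hctx.base.orbit_level i))
    have hreg : IsIwReg409 (B.o i) (n (B.o i)) (φ₀ (B.o i)) := by
      by_cases hi0 : B.o i = B.o 0
      · rw [hi0]
        rw [hφ0]
        exact isIwReg_regLoc409 _ hsys.sys' hsys.unif' k j
      · have hipos : 0 < i := by
          rcases Nat.eq_zero_or_pos i with h | h
          · exact absurd (by rw [h]) hi0
          · exact h
        rw [hφi i hipos (by rw [hctx.base.deg]; exact hi)]
        exact isIwReg_iwFn409 _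
    exact ⟨isBiInv_of_isIwReg409 hn1 hreg, hreg.2.2⟩
  · have hm1 : 1 ≤ m B.u := one_le_level409 hsys.level_ne hctx.lev_m hsys.u_level
    have hreg : IsIwReg409 B.u (m B.u) (f₀ B.u) := by
      rw [hfu]
      exact isIwReg_smul409 (isIwReg_regLoc409 _ hsys.sys hsys.unif k j) t
    exact ⟨isBiInv_of_isIwReg409 hm1 hreg, hreg.2.2⟩

end Leaf

/-! ## Appendix: the equation lemmas of the definition of this file are realised HERE -/

theorem eqns_realised_regOrb409 : True := by
  have _a1 := @IsIwReg409.eq_1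
  have _a2 := @IsIwReg409.eq_def
  have _a3 := @IsIwReg409.eq_unfold
  trivial

end Fermat.Agent.LT.T7.H409

end
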