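import Mathlib
import Fermat.Agent.LT.T7.H563.ProdShapeQSpec
import Fermat.Agent.LT.T7.H409.RegOrb

/-!
# Row LT, tower T7, leaf T7.L2Q.1.H2b.4.L1 `PQ563.RegOrbQC563` (cut of helper563, registry row
# 2968, helper409): PROVED, VERBATIM

OFF-MAIN.  No hole, nothing assumed.  ADDITIVE (new name only, suffix `409`, namespace
`Fermat.Agent.LT.T7.H409`).

    regOrbQC409 F : PQ563.RegOrbQC563 F

Statement of `T7/H563/ProdShapeQSpec.lean` (helper563@681304ae1, sha256 110115a8): the MIRROR
over `ℚ` of `P51.RegOrbC51` (registry row 2827, `RegOrb.lean`, sha256 ee98d387).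

## Proof

The local kit of `RegOrb.lean` is field-independent: `isIwReg_regLoc409` (the local regularised
Iwahori functions `regLoc51 w z H k j 1_I` are left and right invariant under the Iwahori
subgroup, with finite support modulo `U(n)`), `isIwReg_iwFn409`, `isIwReg_smul409`,
`isBiInv_of_isIwReg409` (`U(n) ⊆ I` for `n ≥ 1`), `one_le_level409` (the exponent of a non-zero
ideal at a place dividing it is `≥ 1`).  The places over `u` are `o 0`, `o 1`
(`IsL2QBase.orbit_all`), they are in `S'` (`orbit_level`), i.e. they divide `𝔫 𝒪_F`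
(`IsSysQ563.mem_S'_g`); `u ∣ 𝔫` (`u_level`).  The components are those of the shape
`LocProdQ563`: `regLoc51` at `o 0`, `1_I` at `o 1`, `t · regLoc51` at `u`.

No equation lemma of a foreign definition is realised here.
-/

set_option autoImplicit false
set_option linter.unusedSectionVars false
set_option linter.unusedVariables false
set_option linter.style.haveILetI false

open AutomorphicForm IsDedekindDomain NumberField MeasureTheory
open scoped ComplexConjugate

noncomputable section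

namespace Fermat.Agent.LT.T7.H409

open Fermat.Agent.LT.H556 Fermat.Agent.LT.H556.A0 Fermat.Agent.LT.T7
open Fermat.Agent.LT.T7.H305 Fermat.Agent.LT.T7.H893 Fermat.Agent.LT.T7.P51

/-- **LEAF PS.L1 = REG-ORB over `ℚ`** (`PQ563.RegOrbQC563`), VERBATIM. -/
theorem regOrbQC409 (F : Type) [Field F] [NumberField F] :
    Fermat.Agent.LT.T7.PQ563.RegOrbQC563 F := by
  intro Φ B g 𝔫 μr μc c T₀ n n₀ m H' z' H z t lam k j T φ₀ Φ' f₀ F0 F1 hloc
  obtain ⟨hctx, hsys, _hc, _ht, _hlam, hprod⟩ := hloc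
  obtain ⟨T₁, T₂, φ₁, Φ₁, f₁, F0₁, F1₁, φ₂, Φ₂, f₂, F0₂, F1₂, -, -, -, -, -, -, hfu, hφ0, hφ1,
    -, -, -, -⟩ := hprod
  -- the components of `toBase962_732 B` are those of `B` (by definition)
  have hfu : f₀ B.u = fun x => t * regLoc51 B.u z H k j iwFn893 x := hfu
  have hφ0 : φ₀ (B.o 0) = regLoc51 (B.o 0) z' H' k j iwFn893 := hφ0
  have hφ1 : φ₀ (B.o 1) = iwFn893 := hφ1
  have hup : upI (K' := F) 𝔫 ≠ ⊥ := by
    show Ideal.map (algebraMap (𝓞 ℚ) (𝓞 F)) 𝔫 ≠ ⊥
    intro h0
    exact hsys.level_ne ((Ideal.map_eq_bot_iff_of_injective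
      (FaithfulSMul.algebraMap_injective (𝓞 ℚ) (𝓞 F))).mp h0)
  refine ⟨fun w hw => ?_, ?_⟩
  · -- the places over `u` are the places of the orbit
    obtain ⟨i, hi, rfl⟩ := hctx.base.orbit_all w hw
    have hn1 : 1 ≤ n (B.o i) :=
      one_le_level409 hup hctx.lev_n ((hsys.mem_S'_g (B.o i)).mp (hctx.base.orbit_level i))
    have hreg : IsIwReg409 (B.o i) (n (B.o i)) (φ₀ (B.o i)) := by
      have hi01 : i = 0 ∨ i = 1 := by omega
      rcases hi01 with rfl | rfl
      · rw [hφ0]
        exact isIwReg_regLoc409 _ hsys.sys' hsys.unif' k j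
      · rw [hφ1]
        exact isIwReg_iwFn409 _
    exact ⟨isBiInv_of_isIwReg409 hn1 hreg, hreg.2.2⟩
  · have hm1 : 1 ≤ m B.u := one_le_level409 hsys.level_ne hctx.lev_m hsys.u_level
    have hreg : IsIwReg409 B.u (m B.u) (f₀ B.u) := by
      rw [hfu]
      exact isIwReg_smul409 (isIwReg_regLoc409 _ hsys.sys hsys.unif k j) t
    exact ⟨isBiInv_of_isIwReg409 hm1 hreg, hreg.2.2⟩

end Fermat.Agent.LT.T7.H409

end
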